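/-
S21 / package B' (helper49): linear algebra of pullback (permutation) operators on `X → ℂ`
for a group action on a finite set.  Mathlib only.
-/
import Mathlib

set_option autoImplicit false

namespace Fermat.Agent.S21.H49

open Module

variable {G : Type*} [Group G] {X : Type*} [MulAction G X]

/-- Pullback of functions along the action of `g`. -/
def pull (g : G) : (X → ℂ) →ₗ[ℂ] (X → ℂ) where
  toFun v := fun x => v (g • x)
  map_add' _ _ := rfl
  map_smul' _ _ := rfl

@[simp] lemma pull_apply (g : G) (v : X → ℂ) (x : X) : pull g v x = v (g • x) := rfl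

lemma pull_mul_apply (g h : G) (v : X → ℂ) : pull (g * h) v = pull h (pull g v) := by
  funext x; simp [mul_smul]

lemma pull_one_apply (v : X → ℂ) : pull (1 : G) v = v := by
  funext x; simp

lemma pull_inv_pull (g : G) (v : X → ℂ) : pull g⁻¹ (pull g v) = v := by
  rw [← pull_mul_apply, mul_inv_cancel, pull_one_apply]

lemma pull_pull_inv (g : G) (v : X → ℂ) : pull g (pull g⁻¹ v) = v := by
  rw [← pull_mul_apply, inv_mul_cancel, pull_one_apply]

section Fin

variable [Fintype X]

/-- The standard bilinear pairing on `X → ℂ`. -/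
def pair (w v : X → ℂ) : ℂ := ∑ x, w x * v x

lemma pair_add_right (w v v' : X → ℂ) : pair w (v + v') = pair w v + pair w v' := by
  simp [pair, mul_add, Finset.sum_add_distrib]

lemma pair_sub_right (w v v' : X → ℂ) : pair w (v - v') = pair w v - pair w v' := by
  simp [pair, mul_sub, Finset.sum_sub_distrib]

lemma pair_add_left (w w' v : X → ℂ) : pair (w + w') v = pair w v + pair w' v := by
  simp [pair, add_mul, Finset.sum_add_distrib]

lemma pair_smul_left (c : ℂ) (w v : X → ℂ) : pair (c • w) v = c * pair w v := by
  simp [pair, Finset.mul_sum, mul_assoc]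

lemma pair_smul_right (c : ℂ) (w v : X → ℂ) : pair w (c • v) = c * pair w v := by
  simp [pair, Finset.mul_sum, mul_left_comm]

lemma pair_zero_right (w : X → ℂ) : pair w 0 = 0 := by simp [pair]

lemma pair_pull_pull (g : G) (w v : X → ℂ) : pair (pull g w) (pull g v) = pair w v := by
  unfold pair
  exact Fintype.sum_equiv (MulAction.toPerm g) _ _ (fun x => rfl)

lemma pair_pull_right (g : G) (w v : X → ℂ) : pair w (pull g v) = pair (pull g⁻¹ w) v := by
  rw [← pair_pull_pull g⁻¹ w (pull g v), pull_inv_pull]

lemma eq_of_pair_eq {w w' : X → ℂ} (h : ∀ v, pair w v = pair w' v) : w = w' := by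
  classical
  funext x
  have := h (Pi.single x 1)
  simpa [pair, Pi.single_apply] using this

/-- The trace of a pullback operator is the number of fixed points. -/
lemma trace_pull (g : G) :
    LinearMap.trace ℂ (X → ℂ) (pull g) = (Nat.card (MulAction.fixedBy X g) : ℂ) := by
  classical
  rw [LinearMap.trace_eq_matrix_trace ℂ (Pi.basisFun ℂ X), Matrix.trace]
  have h1 : ∀ x : X, Matrix.diag (LinearMap.toMatrix (Pi.basisFun ℂ X) (Pi.basisFun ℂ X)
      (pull g)) x = if g • x = x then 1 else 0 := by
    intro x
    simp [Pi.single_apply]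
  simp_rw [h1]
  rw [Finset.sum_boole, Nat.card_eq_fintype_card]
  congr 1
  rw [Fintype.card_subtype]
  rfl

/-- For an involution, `2 * dim ker (1 + P) + #Fix = |X|`. -/
lemma two_mul_finrank_ker_add (g : G) (h2 : ∀ x : X, g • g • x = x) :
    2 * finrank ℂ (LinearMap.ker (1 + pull (X := X) g))
      + Nat.card (MulAction.fixedBy X g) = Fintype.card X := by
  classical
  have hPP : ∀ v : X → ℂ, pull g (pull g v) = v := fun v => by funext x; simp [h2]
  set E : (X → ℂ) →ₗ[ℂ] (X → ℂ) := (2 : ℂ)⁻¹ • (1 - pull g) with hE
  have hproj : LinearMap.IsProj (LinearMap.ker (1 + pull (X := X) g)) E := by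
    refine ⟨fun v => ?_, fun v hv => ?_⟩
    · rw [LinearMap.mem_ker]
      simp only [hE, LinearMap.add_apply, Module.End.one_apply, LinearMap.smul_apply,
        LinearMap.sub_apply, map_smul, map_sub, hPP]
      module
    · rw [LinearMap.mem_ker] at hv
      simp only [LinearMap.add_apply, Module.End.one_apply] at hv
      have hv' : pull g v = -v := by
        rw [eq_neg_iff_add_eq_zero, add_comm]; exact hv
      simp only [hE, LinearMap.smul_apply, LinearMap.sub_apply, Module.End.one_apply, hv']
      module
  have htr := hproj.trace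
  rw [hE, map_smul, map_sub, trace_pull, LinearMap.trace_one, finrank_pi,
    smul_eq_mul] at htr
  have h3 : ((2 * finrank ℂ (LinearMap.ker (1 + pull (X := X) g))
      + Nat.card (MulAction.fixedBy X g) : ℕ) : ℂ) = (Fintype.card X : ℂ) := by
    push_cast
    rw [← htr]; ring
  exact_mod_cast h3

/-- For a permutation of order three, `3 * dim ker (1 + P + P²) + 2 * #Fix = 2 * |X|`. -/
lemma three_mul_finrank_ker_add (g : G) (h3 : ∀ x : X, g • g • g • x = x) :
    3 * finrank ℂ (LinearMap.ker (1 + pull (X := X) g + pull g ∘ₗ pull g))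
      + 2 * Nat.card (MulAction.fixedBy X g) = 2 * Fintype.card X := by
  classical
  have hPPP : ∀ v : X → ℂ, pull g (pull g (pull g v)) = v := fun v => by funext x; simp [h3]
  have hfix : MulAction.fixedBy X (g * g) = MulAction.fixedBy X g := by
    ext x
    simp only [MulAction.mem_fixedBy, mul_smul]
    constructor
    · intro h
      have := h3 x
      rw [h] at this
      exact this
    · intro h; rw [h, h]
  have hgg : pull (X := X) g ∘ₗ pull g = pull (g * g) := by
    ext v x; simp [mul_smul]
  set Q : (X → ℂ) →ₗ[ℂ] (X → ℂ) := 1 + pull (X := X) g + pull g ∘ₗ pull g with hQ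
  set E : (X → ℂ) →ₗ[ℂ] (X → ℂ) := 1 - (3 : ℂ)⁻¹ • Q with hE
  have hproj : LinearMap.IsProj (LinearMap.ker Q) E := by
    refine ⟨fun v => ?_, fun v hv => ?_⟩
    · rw [LinearMap.mem_ker]
      simp only [hE, hQ, LinearMap.add_apply, Module.End.one_apply, LinearMap.smul_apply,
        LinearMap.sub_apply, LinearMap.comp_apply, map_smul, map_sub, map_add, hPPP]
      module
    · rw [LinearMap.mem_ker] at hv
      simp only [hE, LinearMap.sub_apply, Module.End.one_apply, LinearMap.smul_apply, hv,
        smul_zero, sub_zero]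
  have hQtr : LinearMap.trace ℂ (X → ℂ) Q
      = (Fintype.card X : ℂ) + 2 * (Nat.card (MulAction.fixedBy X g) : ℂ) := by
    rw [hQ, map_add, map_add, hgg, trace_pull, trace_pull, hfix, LinearMap.trace_one,
      finrank_pi]
    ring
  have htr := hproj.trace
  rw [hE, map_sub, map_smul, hQtr, LinearMap.trace_one, finrank_pi, smul_eq_mul] at htr
  have h4 : ((3 * finrank ℂ (LinearMap.ker Q)
      + 2 * Nat.card (MulAction.fixedBy X g) : ℕ) : ℂ) = ((2 * Fintype.card X : ℕ) : ℂ) := by
    push_cast
    rw [← htr]; ring
  exact_mod_cast h4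

/-- The space of `g`-invariant functions. -/
def invSub (g : G) : Submodule ℂ (X → ℂ) := LinearMap.ker (pull (X := X) g - 1)

omit [Fintype X] in
lemma mem_invSub {g : G} {w : X → ℂ} : w ∈ invSub g ↔ pull g w = w := by
  simp [invSub, LinearMap.mem_ker, sub_eq_zero]

omit [Fintype X] in
lemma apply_smul_of_mem_zpowers {g : G} {w : X → ℂ} (hw : pull g w = w) {h : G}
    (hh : h ∈ Subgroup.zpowers g) (x : X) : w (h • x) = w x := by
  let H : Subgroup G :=
    { carrier := {h | ∀ x, w (h • x) = w x}
      mul_mem' := fun {a b} ha hb x => by rw [mul_smul, ha, hb]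
      one_mem' := fun x => by rw [one_smul]
      inv_mem' := fun {a} ha x => by
        have := ha (a⁻¹ • x)
        rw [smul_inv_smul] at this
        exact this.symm }
  have hg : g ∈ H := fun x => congrFun hw x
  exact (Subgroup.zpowers_le.mpr hg) hh x

/-- The dimension of the invariants of `g` is the number of orbits of `⟨g⟩`. -/
lemma finrank_invSub (g : G) :
    finrank ℂ (invSub (X := X) g)
      = Nat.card (MulAction.orbitRel.Quotient (Subgroup.zpowers g) X) := by
  classical
  let Ω := MulAction.orbitRel.Quotient (Subgroup.zpowers g) X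
  let mk : X → Ω := Quotient.mk''
  have hmk : Function.Surjective mk := Quotient.mk''_surjective
  let L : (Ω → ℂ) →ₗ[ℂ] (X → ℂ) := LinearMap.funLeft ℂ ℂ mk
  have hL : Function.Injective L := LinearMap.funLeft_injective_of_surjective ℂ ℂ mk hmk
  have hrange : LinearMap.range L = invSub g := by
    ext w
    rw [mem_invSub, LinearMap.mem_range]
    constructor
    · rintro ⟨u, rfl⟩
      funext x
      show u (mk (g • x)) = u (mk x)
      congr 1
      apply Quotient.sound'
      exact ⟨⟨g, Subgroup.mem_zpowers g⟩, rfl⟩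
    · intro hw
      refine ⟨Quotient.lift w ?_, ?_⟩
      · rintro a b ⟨⟨h, hh⟩, rfl⟩
        exact apply_smul_of_mem_zpowers hw hh b
      · funext x; rfl
  have : Fintype Ω := Fintype.ofFinite Ω
  rw [← hrange, LinearMap.finrank_range_of_inj hL, finrank_pi, Nat.card_eq_fintype_card]

end Fin

end Fermat.Agent.S21.H49
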