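/-
S21 / package B' (helper49): the Shapiro section of a homomorphism `Γ → ℂ`
(Γ a subgroup of SL(2,ℤ)), cocycles with values in functions on `SL(2,ℤ) ⧸ Γ`.
-/
import Mathlib
import Fermat.Prelude.Def_ModularCurve_PeriodMap
import Fermat.Agent.S21.H49.Perm

set_option autoImplicit false

namespace Fermat.Agent.S21.H49

open Module ModularGroup ModularCurve.Period
open scoped MatrixGroups

/-! ### Matrix facts -/

lemma S_mul_S : (S * S : SL(2, ℤ)) = -1 := by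
  ext i j
  fin_cases i <;> fin_cases j <;>
    simp [Matrix.SpecialLinearGroup.coe_mul, coe_S, Matrix.mul_apply, Fin.sum_univ_two]

lemma U_cube : ((S * T) * (S * T) * (S * T) : SL(2, ℤ)) = -1 := by
  ext i j
  fin_cases i <;> fin_cases j <;>
    simp [Matrix.SpecialLinearGroup.coe_mul, coe_S, coe_T, Matrix.mul_apply, Fin.sum_univ_two]

lemma trace_conj (a g : SL(2, ℤ)) :
    ((a⁻¹ * g * a : SL(2, ℤ)) : Matrix (Fin 2) (Fin 2) ℤ).trace
      = (g : Matrix (Fin 2) (Fin 2) ℤ).trace := by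
  rw [Matrix.SpecialLinearGroup.coe_mul, Matrix.trace_mul_comm,
    ← Matrix.SpecialLinearGroup.coe_mul, mul_inv_cancel_left]

lemma trace_T_pow (n : ℕ) : ((T ^ n : SL(2, ℤ)) : Matrix (Fin 2) (Fin 2) ℤ).trace = 2 := by
  have h := coe_T_zpow (n : ℤ)
  rw [zpow_natCast] at h
  rw [h, Matrix.trace_fin_two_of]
  norm_num

/-! ### Cocycles -/

section Coc

variable {X : Type*} [MulAction SL(2, ℤ) X]

/-- Cocycles for the pullback action of `SL(2,ℤ)` on functions. -/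
def IsCoc (c : SL(2, ℤ) → X → ℂ) : Prop :=
  ∀ g h, c (g * h) = pull h (c g) + c h

lemma IsCoc.one {c : SL(2, ℤ) → X → ℂ} (hc : IsCoc c) : c 1 = 0 := by
  have h := hc 1 1
  rw [mul_one, pull_one_apply] at h
  exact left_eq_add.mp h

lemma IsCoc.eq_zero {c : SL(2, ℤ) → X → ℂ} (hc : IsCoc c) (hS : c S = 0)
    (hU : c (S * T) = 0) (g : SL(2, ℤ)) : c g = 0 := by
  have hT : c T = 0 := by
    have h := hc S T
    rw [hU, hS, map_zero, zero_add] at h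
    exact h.symm
  have hg : g ∈ Subgroup.closure ({S, T} : Set SL(2, ℤ)) := by
    rw [SpecialLinearGroup.SL2Z_generators]; trivial
  induction hg using Subgroup.closure_induction with
  | mem x hx =>
    rcases hx with rfl | rfl
    · exact hS
    · exact hT
  | one => exact hc.one
  | mul x y _ _ hx hy => rw [hc x y, hx, hy, map_zero, add_zero]
  | inv x _ hx =>
    have h := hc x x⁻¹
    rw [mul_inv_cancel, hc.one, hx, map_zero, zero_add] at h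
    exact h.symm

lemma IsCoc.sub {c c' : SL(2, ℤ) → X → ℂ} (hc : IsCoc c) (hc' : IsCoc c') :
    IsCoc (fun g => c g - c' g) := by
  intro g h
  simp only [hc g h, hc' g h, map_sub]
  abel

/-- Coboundaries. -/
def cob (m : X → ℂ) (g : SL(2, ℤ)) : X → ℂ := pull g m - m

lemma isCoc_cob (m : X → ℂ) : IsCoc (cob m) := by
  intro g h
  simp only [cob, pull_mul_apply, map_sub]
  abel

variable [Fintype X]

lemma pair_pull_of_inv {g : SL(2, ℤ)} {w : X → ℂ} (hw : pull g w = w) (v : X → ℂ) :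
    pair w (pull g v) = pair w v := by
  conv_lhs => rw [← hw]
  exact pair_pull_pull g w v

lemma IsCoc.pair_pow {c : SL(2, ℤ) → X → ℂ} (hc : IsCoc c) {g : SL(2, ℤ)} {w : X → ℂ}
    (hw : pull g w = w) (n : ℕ) : pair w (c (g ^ n)) = n * pair w (c g) := by
  induction n with
  | zero => simp [hc.one, pair_zero_right]
  | succ n ih =>
    rw [pow_succ, hc, pair_add_right, pair_pull_of_inv hw, ih]
    push_cast; ring

end Coc

/-! ### The section -/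

section Sec

variable {Γ : Subgroup SL(2, ℤ)}

open Classical in
/-- Extension by zero of a homomorphism on `Γ`. -/
noncomputable def ext0 (φ : Additive Γ →+ ℂ) (g : SL(2, ℤ)) : ℂ :=
  if h : g ∈ Γ then φ (Additive.ofMul ⟨g, h⟩) else 0

lemma ext0_of_mem (φ : Additive Γ →+ ℂ) {g : SL(2, ℤ)} (h : g ∈ Γ) :
    ext0 φ g = φ (Additive.ofMul ⟨g, h⟩) := dif_pos h

lemma ext0_mul (φ : Additive Γ →+ ℂ) {a b : SL(2, ℤ)} (ha : a ∈ Γ) (hb : b ∈ Γ) :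
    ext0 φ (a * b) = ext0 φ a + ext0 φ b := by
  rw [ext0_of_mem φ ha, ext0_of_mem φ hb, ext0_of_mem φ (Γ.mul_mem ha hb), ← map_add]
  rfl

lemma ext0_one (φ : Additive Γ →+ ℂ) : ext0 φ 1 = 0 := by
  have h := ext0_mul φ Γ.one_mem Γ.one_mem
  rw [mul_one] at h
  exact left_eq_add.mp h

lemma ext0_inv (φ : Additive Γ →+ ℂ) {a : SL(2, ℤ)} (ha : a ∈ Γ) :
    ext0 φ a⁻¹ = - ext0 φ a := by
  have h := ext0_mul φ (Γ.inv_mem ha) ha
  rw [inv_mul_cancel, ext0_one] at h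
  exact eq_neg_of_add_eq_zero_left h.symm

lemma ext0_conj (φ : Additive Γ →+ ℂ) {a r : SL(2, ℤ)} (ha : a ∈ Γ) (hr : r ∈ Γ) :
    ext0 φ (r⁻¹ * a * r) = ext0 φ a := by
  rw [ext0_mul φ (Γ.mul_mem (Γ.inv_mem hr) ha) hr, ext0_mul φ (Γ.inv_mem hr) ha,
    ext0_inv φ hr]
  ring

lemma ext0_add (φ ψ : Additive Γ →+ ℂ) (g : SL(2, ℤ)) :
    ext0 (φ + ψ) g = ext0 φ g + ext0 ψ g := by
  by_cases h : g ∈ Γ
  · rw [ext0_of_mem _ h, ext0_of_mem _ h, ext0_of_mem _ h]; rfl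
  · simp [ext0, h]

lemma ext0_smul (c : ℂ) (φ : Additive Γ →+ ℂ) (g : SL(2, ℤ)) :
    ext0 (c • φ) g = c * ext0 φ g := by
  by_cases h : g ∈ Γ
  · rw [ext0_of_mem _ h, ext0_of_mem _ h]; rfl
  · simp [ext0, h]

lemma ext0_neg_one (φ : Additive Γ →+ ℂ) (hΓ : (-1 : SL(2, ℤ)) ∈ Γ) :
    ext0 φ (-1) = 0 := by
  have h := ext0_mul φ hΓ hΓ
  rw [neg_mul_neg, mul_one, ext0_one] at h
  have h2 : (2 : ℂ) * ext0 φ (-1) = 0 := by rw [two_mul]; exact h.symm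
  exact (mul_eq_zero.mp h2).resolve_left two_ne_zero

/-- The Shapiro section of `φ`. -/
noncomputable def sec (φ : Additive Γ →+ ℂ) (g : SL(2, ℤ)) (x : SL(2, ℤ) ⧸ Γ) : ℂ :=
  ext0 φ ((g • x).out⁻¹ * g * x.out)

lemma sec_mem (g : SL(2, ℤ)) (x : SL(2, ℤ) ⧸ Γ) : (g • x).out⁻¹ * g * x.out ∈ Γ := by
  rw [mul_assoc]
  apply QuotientGroup.eq.mp
  rw [QuotientGroup.out_eq']
  conv_lhs => rw [← QuotientGroup.out_eq' x]
  rfl

lemma isCoc_sec (φ : Additive Γ →+ ℂ) : IsCoc (sec φ) := by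
  intro g h
  funext x
  show sec φ (g * h) x = sec φ g (h • x) + sec φ h x
  unfold sec
  rw [← ext0_mul φ (sec_mem g (h • x)) (sec_mem h x), mul_smul]
  congr 1
  group

lemma sec_add (φ ψ : Additive Γ →+ ℂ) (g : SL(2, ℤ)) : sec (φ + ψ) g = sec φ g + sec ψ g := by
  funext x; exact ext0_add φ ψ _

lemma sec_smul (c : ℂ) (φ : Additive Γ →+ ℂ) (g : SL(2, ℤ)) : sec (c • φ) g = c • sec φ g := by
  funext x; exact ext0_smul c φ _

lemma sec_base (φ : Additive Γ →+ ℂ) (γ : Γ) :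
    sec φ (γ : SL(2, ℤ)) ((1 : SL(2, ℤ)) : SL(2, ℤ) ⧸ Γ) = φ (Additive.ofMul γ) := by
  have h1 : (γ : SL(2, ℤ)) • ((1 : SL(2, ℤ)) : SL(2, ℤ) ⧸ Γ) = ((1 : SL(2, ℤ)) : SL(2, ℤ) ⧸ Γ) := by
    show (((γ : SL(2, ℤ)) * 1 : SL(2, ℤ)) : SL(2, ℤ) ⧸ Γ) = _
    rw [QuotientGroup.eq]
    simp
  have hr : (((1 : SL(2, ℤ)) : SL(2, ℤ) ⧸ Γ)).out ∈ Γ := by
    have h2 : ((((1 : SL(2, ℤ)) : SL(2, ℤ) ⧸ Γ).out : SL(2, ℤ)) : SL(2, ℤ) ⧸ Γ)
        = ((1 : SL(2, ℤ)) : SL(2, ℤ) ⧸ Γ) := QuotientGroup.out_eq' _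
    have h3 := QuotientGroup.eq.mp h2.symm
    simpa using h3
  unfold sec
  rw [h1, ext0_conj φ γ.2 hr, ext0_of_mem φ γ.2]

lemma sec_neg_one (φ : Additive Γ →+ ℂ) (hΓ : (-1 : SL(2, ℤ)) ∈ Γ) : sec φ (-1) = 0 := by
  funext x
  have h1 : (-1 : SL(2, ℤ)) • x = x := by
    induction x using QuotientGroup.induction_on with
    | H g =>
      show (((-1 : SL(2, ℤ)) * g : SL(2, ℤ)) : SL(2, ℤ) ⧸ Γ) = _
      rw [QuotientGroup.eq]
      simp [hΓ]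
  unfold sec
  rw [h1]
  have h2 : x.out⁻¹ * (-1 : SL(2, ℤ)) * x.out = -1 := by simp
  rw [h2, ext0_neg_one φ hΓ]
  rfl

lemma sec_eq_zero_of_parabolic {φ : Additive Γ →+ ℂ} (hφ : IsParabolicHom Γ φ) (n : ℕ)
    (x : SL(2, ℤ) ⧸ Γ) (hx : (T ^ n : SL(2, ℤ)) • x = x) : sec φ (T ^ n) x = 0 := by
  have hmem := sec_mem (Γ := Γ) (T ^ n) x
  unfold sec
  rw [hx] at hmem ⊢
  rw [ext0_of_mem φ hmem]
  apply hφ ⟨_, hmem⟩
  show ((x.out⁻¹ * T ^ n * x.out : SL(2, ℤ)) : Matrix (Fin 2) (Fin 2) ℤ).trace ^ 2 = 4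
  rw [trace_conj, trace_T_pow]
  norm_num

end Sec

end Fermat.Agent.S21.H49
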