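/-
S21 / package B' (helper49): the dimension bound for parabolic homomorphisms
`Γ → ℂ` of a finite-index subgroup `Γ ∋ -1` of `SL(2,ℤ)`:
`dim ≤ 2 + μ/6 - ν₂/2 - 2ν₃/3 - ν∞` in terms of orbit counts on `SL(2,ℤ) ⧸ Γ`.
-/
import Mathlib
import Fermat.Prelude.Def_ModularCurve_PeriodMap
import Fermat.Agent.S21.H49.Cocycle

set_option autoImplicit false

namespace Fermat.Agent.S21.H49

open Module ModularGroup ModularCurve.Period
open scoped MatrixGroups

/-- The product of two submodules, as a product of types. -/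
def prodEquivAux {M M' : Type*} [AddCommGroup M] [Module ℂ M] [AddCommGroup M'] [Module ℂ M']
    (p : Submodule ℂ M) (q : Submodule ℂ M') : ↥(p.prod q) ≃ₗ[ℂ] ↥p × ↥q where
  toFun x := (⟨x.1.1, (Submodule.mem_prod.mp x.2).1⟩, ⟨x.1.2, (Submodule.mem_prod.mp x.2).2⟩)
  invFun y := ⟨(y.1.1, y.2.1), Submodule.mem_prod.mpr ⟨y.1.2, y.2.2⟩⟩
  map_add' _ _ := rfl
  map_smul' _ _ := rfl
  left_inv _ := rfl
  right_inv _ := rfl

section Generic

variable {X : Type*} [MulAction SL(2, ℤ) X]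

/-- `ker (1 + P_S)`. -/
def kerS : Submodule ℂ (X → ℂ) := LinearMap.ker (1 + pull (X := X) S)

/-- `ker (1 + P_U + P_U²)`, `U = S * T`. -/
def kerU : Submodule ℂ (X → ℂ) :=
  LinearMap.ker (1 + pull (X := X) (S * T) + pull (S * T) ∘ₗ pull (S * T))

lemma mem_kerS {a : X → ℂ} : a ∈ kerS ↔ a + pull S a = 0 := by
  simp [kerS, LinearMap.mem_ker]

lemma mem_kerU {b : X → ℂ} :
    b ∈ kerU ↔ b + pull (S * T) b + pull (S * T) (pull (S * T) b) = 0 := by
  simp [kerU, LinearMap.mem_ker]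

/-- The ambient space of pairs `(Φ(S), Φ(U))`. -/
def spaceA : Submodule ℂ ((X → ℂ) × (X → ℂ)) := (kerS).prod (kerU)

lemma mem_spaceA {p : (X → ℂ) × (X → ℂ)} : p ∈ spaceA ↔ p.1 ∈ kerS ∧ p.2 ∈ kerU :=
  Submodule.mem_prod

lemma IsCoc.mem_spaceA {c : SL(2, ℤ) → X → ℂ} (hc : IsCoc c) (hneg : c (-1) = 0) :
    (c S, c (S * T)) ∈ spaceA := by
  rw [H49.mem_spaceA]
  constructor
  · rw [mem_kerS]
    have h := hc S S
    rw [S_mul_S, hneg] at h
    rw [add_comm]; exact h.symm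
  · rw [mem_kerU]
    have h1 := hc (S * T) (S * T)
    have h2 := hc ((S * T) * (S * T)) (S * T)
    rw [U_cube, hneg, h1, map_add] at h2
    rw [h2]; abel

variable [Fintype X]

/-- The subspace cut out by the parabolic conditions at the cusps. -/
def spaceK : Submodule ℂ ((X → ℂ) × (X → ℂ)) where
  carrier := {p | p ∈ spaceA ∧ ∀ w : X → ℂ, pull T w = w → pair w (p.2 - p.1) = 0}
  add_mem' := by
    rintro p q ⟨hp, hp'⟩ ⟨hq, hq'⟩
    refine ⟨add_mem hp hq, fun w hw => ?_⟩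
    have : (p + q).2 - (p + q).1 = (p.2 - p.1) + (q.2 - q.1) := by
      simp only [Prod.snd_add, Prod.fst_add]; abel
    rw [this, pair_add_right, hp' w hw, hq' w hw, add_zero]
  zero_mem' := ⟨zero_mem _, fun w _ => by simp [pair_zero_right]⟩
  smul_mem' := by
    rintro c p ⟨hp, hp'⟩
    refine ⟨Submodule.smul_mem _ c hp, fun w hw => ?_⟩
    have : (c • p).2 - (c • p).1 = c • (p.2 - p.1) := by
      simp only [Prod.smul_snd, Prod.smul_fst, smul_sub]
    rw [this, pair_smul_right, hp' w hw, mul_zero]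

lemma mem_spaceK {p : (X → ℂ) × (X → ℂ)} :
    p ∈ spaceK ↔ p ∈ spaceA ∧ ∀ w : X → ℂ, pull T w = w → pair w (p.2 - p.1) = 0 := Iff.rfl

lemma spaceK_le_spaceA : (spaceK : Submodule ℂ ((X → ℂ) × (X → ℂ))) ≤ spaceA :=
  fun _ hp => hp.1

lemma IsCoc.mem_spaceK {c : SL(2, ℤ) → X → ℂ} (hc : IsCoc c) (hneg : c (-1) = 0)
    (hT : ∀ w : X → ℂ, pull T w = w → pair w (c T) = 0) :
    (c S, c (S * T)) ∈ spaceK := by
  refine ⟨hc.mem_spaceA hneg, fun w hw => ?_⟩
  show pair w (c (S * T) - c S) = 0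
  rw [hc S T, pair_sub_right, pair_add_right, pair_pull_of_inv hw, hT w hw]
  ring

/-- The coboundary map `m ↦ (P_S m - m, P_U m - m)`. -/
def cobL : (X → ℂ) →ₗ[ℂ] (X → ℂ) × (X → ℂ) :=
  (pull (X := X) S - 1).prod (pull (X := X) (S * T) - 1)

omit [Fintype X] in
lemma cobL_apply (m : X → ℂ) : cobL m = (cob m S, cob m (S * T)) := rfl

omit [Fintype X] in
/-- A function invariant under `S` and `S * T` is constant on orbits. -/
lemma apply_smul_of_cob_eq_zero {m : X → ℂ} (hS : cob m S = 0) (hU : cob m (S * T) = 0)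
    (g : SL(2, ℤ)) (x : X) : m (g • x) = m x := by
  have h := (isCoc_cob m).eq_zero hS hU g
  have h' := congrFun h x
  simpa [cob, sub_eq_zero] using h'

omit [Fintype X] in
lemma mem_span_one_of_cob_eq_zero [MulAction.IsPretransitive SL(2, ℤ) X] {m : X → ℂ}
    (hS : cob m S = 0) (hU : cob m (S * T) = 0) :
    m ∈ Submodule.span ℂ {(fun _ : X => (1 : ℂ))} := by
  rcases isEmpty_or_nonempty X with hX | ⟨⟨x0⟩⟩
  · have : m = 0 := by funext x; exact (hX.false x).elim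
    rw [this]; exact zero_mem _
  · have : m = (m x0) • (fun _ : X => (1 : ℂ)) := by
      funext x
      obtain ⟨g, rfl⟩ := MulAction.exists_smul_eq SL(2, ℤ) x0 x
      simp [apply_smul_of_cob_eq_zero hS hU g x0]
    rw [this]
    exact Submodule.smul_mem _ _ (Submodule.mem_span_singleton_self _)

omit [Fintype X] [MulAction SL(2, ℤ) X] in
lemma finrank_span_one_le : finrank ℂ (Submodule.span ℂ {(fun _ : X => (1 : ℂ))}) ≤ 1 := by
  refine (finrank_span_le_card _).trans ?_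
  simp

lemma range_cobL_le (hX : ∀ x : X, (-1 : SL(2, ℤ)) • x = x) :
    LinearMap.range (cobL (X := X)) ≤ spaceK := by
  rintro _ ⟨m, rfl⟩
  rw [cobL_apply]
  refine (isCoc_cob m).mem_spaceK ?_ ?_
  · funext x; simp [cob, hX]
  · intro w hw
    show pair w (pull T m - m) = 0
    rw [pair_sub_right, pair_pull_of_inv hw, sub_self]

lemma card_le_finrank_range_cobL [MulAction.IsPretransitive SL(2, ℤ) X] :
    Fintype.card X ≤ finrank ℂ (LinearMap.range (cobL (X := X))) + 1 := by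
  have h := LinearMap.finrank_range_add_finrank_ker (cobL (X := X))
  rw [finrank_pi] at h
  have hker : LinearMap.ker (cobL (X := X)) ≤ Submodule.span ℂ {(fun _ : X => (1 : ℂ))} := by
    intro m hm
    rw [LinearMap.mem_ker, cobL_apply, Prod.mk_eq_zero] at hm
    exact mem_span_one_of_cob_eq_zero hm.1 hm.2
  have h2 := (Submodule.finrank_mono hker).trans finrank_span_one_le
  omega

/-- `6 dim A + 3 ν₂ + 4 ν₃ = 7 μ`. -/
lemma finrank_spaceA (hX : ∀ x : X, (-1 : SL(2, ℤ)) • x = x) :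
    6 * finrank ℂ (spaceA (X := X)) + 3 * Nat.card (MulAction.fixedBy X S)
      + 4 * Nat.card (MulAction.fixedBy X (S * T)) = 7 * Fintype.card X := by
  have h2 : ∀ x : X, S • S • x = x := fun x => by rw [← mul_smul, S_mul_S, hX]
  have h3 : ∀ x : X, (S * T) • (S * T) • (S * T) • x = x := fun x => by
    rw [← mul_smul, ← mul_smul, U_cube, hX]
  have e1 := two_mul_finrank_ker_add (X := X) S h2
  have e2 := three_mul_finrank_ker_add (X := X) (S * T) h3
  have e3 : finrank ℂ (spaceA (X := X))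
      = finrank ℂ (kerS (X := X)) + finrank ℂ (kerU (X := X)) := by
    rw [spaceA, ← Module.finrank_prod]
    exact LinearEquiv.finrank_eq (prodEquivAux _ _)
  change 2 * finrank ℂ (kerS (X := X)) + _ = _ at e1
  change 3 * finrank ℂ (kerU (X := X)) + _ = _ at e2
  omega

/-- The standard pairing as a bilinear map. -/
def pairB : (X → ℂ) →ₗ[ℂ] (X → ℂ) →ₗ[ℂ] ℂ :=
  LinearMap.mk₂ ℂ pair pair_add_left (fun c w v => by rw [pair_smul_left, smul_eq_mul])
    pair_add_right (fun c w v => by rw [pair_smul_right, smul_eq_mul])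

/-- `dim K + ν∞ ≤ dim A + 1`: the cusp conditions have rank at least `ν∞ - 1`. -/
lemma finrank_spaceK_add_le (hX : ∀ x : X, (-1 : SL(2, ℤ)) • x = x)
    [MulAction.IsPretransitive SL(2, ℤ) X] :
    finrank ℂ (spaceK (X := X))
      + Nat.card (MulAction.orbitRel.Quotient (Subgroup.zpowers T) X)
      ≤ finrank ℂ (spaceA (X := X)) + 1 := by
  classical
  have h2 : ∀ v : X → ℂ, pull S (pull S v) = v := fun v => by
    funext x; simp only [pull_apply]; rw [← mul_smul, S_mul_S, hX]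
  have h3 : ∀ v : X → ℂ, pull (S * T) (pull (S * T) (pull (S * T) v)) = v := fun v => by
    funext x; simp only [pull_apply]; rw [← mul_smul, ← mul_smul, U_cube, hX]
  let W : Submodule ℂ (X → ℂ) := invSub (X := X) T
  let D : ↥(spaceA (X := X)) →ₗ[ℂ] (X → ℂ) :=
    (LinearMap.snd ℂ (X → ℂ) (X → ℂ) - LinearMap.fst ℂ (X → ℂ) (X → ℂ))
      ∘ₗ (spaceA (X := X)).subtype
  let Θ : ↥W →ₗ[ℂ] Module.Dual ℂ ↥(spaceA (X := X)) :=
    ((pairB (X := X)).compl₂ D) ∘ₗ W.subtype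
  have hΘ : ∀ (w : W) (α : spaceA (X := X)),
      Θ w α = pair (w : X → ℂ) (α.1.2 - α.1.1) := fun _ _ => rfl
  have e1 := Subspace.finrank_add_finrank_dualCoannihilator_eq (LinearMap.range Θ)
  have e2 := LinearMap.finrank_range_add_finrank_ker Θ
  have e3 : finrank ℂ (LinearMap.ker Θ) ≤ 1 := by
    have hker : (LinearMap.ker Θ).map W.subtype
        ≤ Submodule.span ℂ {(fun _ : X => (1 : ℂ))} := by
      rintro _ ⟨w, hw, rfl⟩
      rw [SetLike.mem_coe, LinearMap.mem_ker] at hw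
      have key : ∀ α ∈ spaceA (X := X), pair (w : X → ℂ) (α.2 - α.1) = 0 := fun α hα => by
        have := LinearMap.congr_fun hw ⟨α, hα⟩
        rwa [hΘ] at this
      have hS : pull S (w : X → ℂ) = w := by
        have hh : ∀ v, pair (w : X → ℂ) v = pair (pull S⁻¹ (w : X → ℂ)) v := by
          intro v
          have hα : (v - pull S v, (0 : X → ℂ)) ∈ spaceA (X := X) := by
            rw [mem_spaceA]; refine ⟨?_, zero_mem _⟩
            rw [mem_kerS, map_sub, h2, sub_add_sub_cancel, sub_self]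
          have := key _ hα
          rw [pair_sub_right, pair_zero_right, pair_sub_right, pair_pull_right] at this
          linear_combination -this
        have hw' := eq_of_pair_eq hh
        conv_lhs => rw [hw']
        exact pull_pull_inv S _
      have hU : pull (S * T) (w : X → ℂ) = w := by
        have hh : ∀ v, pair (w : X → ℂ) v = pair (pull (S * T)⁻¹ (w : X → ℂ)) v := by
          intro v
          have hα : ((0 : X → ℂ), v - pull (S * T) v) ∈ spaceA (X := X) := by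
            rw [mem_spaceA]; refine ⟨zero_mem _, ?_⟩
            rw [mem_kerU]; simp only [map_sub, h3]; abel
          have := key _ hα
          rw [sub_zero, pair_sub_right, pair_pull_right] at this
          linear_combination this
        have hw' := eq_of_pair_eq hh
        conv_lhs => rw [hw']
        exact pull_pull_inv (S * T) _
      refine mem_span_one_of_cob_eq_zero ?_ ?_
      · show pull S (w : X → ℂ) - w = 0
        rw [hS, sub_self]
      · show pull (S * T) (w : X → ℂ) - w = 0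
        rw [hU, sub_self]
    have := (Submodule.finrank_mono hker).trans finrank_span_one_le
    rwa [Submodule.finrank_map_subtype_eq] at this
  have e4 : finrank ℂ (spaceK (X := X))
      ≤ finrank ℂ (LinearMap.range Θ).dualCoannihilator := by
    have hle : Submodule.comap (spaceA (X := X)).subtype spaceK
        ≤ (LinearMap.range Θ).dualCoannihilator := by
      intro α hα
      rw [Submodule.mem_dualCoannihilator]
      rintro _ ⟨w, rfl⟩
      rw [hΘ]
      exact (mem_spaceK.mp hα).2 w (mem_invSub.mp w.2)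
    calc finrank ℂ (spaceK (X := X))
        = finrank ℂ (Submodule.comap (spaceA (X := X)).subtype spaceK) :=
          (Submodule.comapSubtypeEquivOfLe (spaceK_le_spaceA (X := X))).finrank_eq.symm
      _ ≤ _ := Submodule.finrank_mono hle
  have e5 : finrank ℂ W
      = Nat.card (MulAction.orbitRel.Quotient (Subgroup.zpowers T) X) := finrank_invSub T
  omega

end Generic

/-! ### The quotient `SL(2,ℤ) ⧸ Γ` -/

section Quot

variable {Γ : Subgroup SL(2, ℤ)}

lemma smul_base (γ : Γ) :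
    (γ : SL(2, ℤ)) • ((1 : SL(2, ℤ)) : SL(2, ℤ) ⧸ Γ) = ((1 : SL(2, ℤ)) : SL(2, ℤ) ⧸ Γ) := by
  show (((γ : SL(2, ℤ)) * 1 : SL(2, ℤ)) : SL(2, ℤ) ⧸ Γ) = _
  rw [QuotientGroup.eq]
  simp

lemma neg_one_smul_quot (hΓ : (-1 : SL(2, ℤ)) ∈ Γ) (x : SL(2, ℤ) ⧸ Γ) :
    (-1 : SL(2, ℤ)) • x = x := by
  induction x using QuotientGroup.induction_on with
  | H g =>
    show (((-1 : SL(2, ℤ)) * g : SL(2, ℤ)) : SL(2, ℤ) ⧸ Γ) = _
    rw [QuotientGroup.eq]
    simp [hΓ]

/-- The linear map `φ ↦ (Φ(S), Φ(U))`. -/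
noncomputable def PsiL :
    (Additive Γ →+ ℂ) →ₗ[ℂ] ((SL(2, ℤ) ⧸ Γ → ℂ) × (SL(2, ℤ) ⧸ Γ → ℂ)) where
  toFun φ := (sec φ S, sec φ (S * T))
  map_add' φ ψ := by rw [sec_add, sec_add]; rfl
  map_smul' c φ := by rw [sec_smul, sec_smul]; rfl

lemma eq_zero_of_PsiL_eq_cobL {φ : Additive Γ →+ ℂ} {m : SL(2, ℤ) ⧸ Γ → ℂ}
    (h : PsiL φ = cobL m) : φ = 0 := by
  have hc : IsCoc (fun g => sec φ g - cob m g) := (isCoc_sec φ).sub (isCoc_cob m)
  rw [cobL_apply] at h
  have hS : sec φ S - cob m S = 0 := sub_eq_zero.mpr (congrArg Prod.fst h)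
  have hU : sec φ (S * T) - cob m (S * T) = 0 := sub_eq_zero.mpr (congrArg Prod.snd h)
  have hz := hc.eq_zero hS hU
  refine AddMonoidHom.ext fun γ => ?_
  have h1 := congrFun (hz ((Additive.toMul γ : Γ) : SL(2, ℤ)))
    ((1 : SL(2, ℤ)) : SL(2, ℤ) ⧸ Γ)
  simp only [Pi.sub_apply, Pi.zero_apply] at h1
  rw [sec_base] at h1
  have h2 : cob m ((Additive.toMul γ : Γ) : SL(2, ℤ)) ((1 : SL(2, ℤ)) : SL(2, ℤ) ⧸ Γ) = 0 := by
    show m (((Additive.toMul γ : Γ) : SL(2, ℤ)) • ((1 : SL(2, ℤ)) : SL(2, ℤ) ⧸ Γ))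
      - m ((1 : SL(2, ℤ)) : SL(2, ℤ) ⧸ Γ) = 0
    rw [smul_base, sub_self]
  rw [h2, sub_zero] at h1
  exact h1

/-- **Package B'**: for a finite-index subgroup `Γ ∋ -1` of `SL(2,ℤ)`,
`dim Hom_par(Γ, ℂ) ≤ 2 + μ/6 - ν₂/2 - 2ν₃/3 - ν∞` (division-free form). -/
theorem finrank_parabolicHoms_le_of (Γ : Subgroup SL(2, ℤ)) [Γ.FiniteIndex]
    (hΓ : (-1 : SL(2, ℤ)) ∈ Γ) :
    Module.Finite ℂ (parabolicHoms ℂ Γ ℂ) ∧
    6 * finrank ℂ (parabolicHoms ℂ Γ ℂ)
      + 3 * Nat.card (MulAction.fixedBy (SL(2, ℤ) ⧸ Γ) S)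
      + 4 * Nat.card (MulAction.fixedBy (SL(2, ℤ) ⧸ Γ) (S * T))
      + 6 * Nat.card (MulAction.orbitRel.Quotient (Subgroup.zpowers T) (SL(2, ℤ) ⧸ Γ))
      ≤ 12 + Nat.card (SL(2, ℤ) ⧸ Γ) := by
  classical
  have : Fintype (SL(2, ℤ) ⧸ Γ) := Fintype.ofFinite _
  have hX : ∀ x : SL(2, ℤ) ⧸ Γ, (-1 : SL(2, ℤ)) • x = x := neg_one_smul_quot hΓ
  let P : parabolicHoms ℂ Γ ℂ →ₗ[ℂ] ((SL(2, ℤ) ⧸ Γ → ℂ) × (SL(2, ℤ) ⧸ Γ → ℂ)) :=
    PsiL ∘ₗ (parabolicHoms ℂ Γ ℂ).subtype
  have hP : ∀ φ : parabolicHoms ℂ Γ ℂ, P φ = PsiL (φ : Additive Γ →+ ℂ) := fun _ => rfl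
  have hinj : Function.Injective P := by
    rw [injective_iff_map_eq_zero]
    intro φ hφ
    rw [hP] at hφ
    have h0 : PsiL (φ : Additive Γ →+ ℂ) = cobL (0 : SL(2, ℤ) ⧸ Γ → ℂ) := by
      rw [hφ, map_zero]
    exact Subtype.ext (eq_zero_of_PsiL_eq_cobL h0)
  have hfin : Module.Finite ℂ (parabolicHoms ℂ Γ ℂ) := Module.Finite.of_injective P hinj
  have hrange : LinearMap.range P ≤ spaceK := by
    rintro _ ⟨φ, rfl⟩
    rw [hP]
    show (sec (φ : Additive Γ →+ ℂ) S, sec (φ : Additive Γ →+ ℂ) (S * T)) ∈ spaceK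
    refine (isCoc_sec (φ : Additive Γ →+ ℂ)).mem_spaceK (sec_neg_one _ hΓ) ?_
    intro w hw
    set n := Fintype.card (Equiv.Perm (SL(2, ℤ) ⧸ Γ)) with hn
    have hnpos : 0 < n := Fintype.card_pos
    have hfix : ∀ x : SL(2, ℤ) ⧸ Γ, (T ^ n : SL(2, ℤ)) • x = x := by
      intro x
      have h : MulAction.toPermHom SL(2, ℤ) (SL(2, ℤ) ⧸ Γ) (T ^ n) = 1 := by
        rw [map_pow]; exact pow_card_eq_one
      have := congrArg (fun σ : Equiv.Perm (SL(2, ℤ) ⧸ Γ) => σ x) h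
      simpa using this
    have hzero : sec (φ : Additive Γ →+ ℂ) (T ^ n) = 0 :=
      funext fun x => sec_eq_zero_of_parabolic φ.2 n x (hfix x)
    have hpow := (isCoc_sec (φ : Additive Γ →+ ℂ)).pair_pow hw n
    rw [hzero, pair_zero_right] at hpow
    have hn0 : (n : ℂ) ≠ 0 := Nat.cast_ne_zero.mpr hnpos.ne'
    exact (mul_eq_zero.mp hpow.symm).resolve_left hn0
  have hdisj : LinearMap.range P ⊓ LinearMap.range (cobL (X := SL(2, ℤ) ⧸ Γ)) = ⊥ := by
    rw [eq_bot_iff]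
    rintro e ⟨⟨φ, rfl⟩, ⟨m, hm⟩⟩
    have h0 : (φ : Additive Γ →+ ℂ) = 0 := eq_zero_of_PsiL_eq_cobL (hP φ ▸ hm.symm)
    rw [Submodule.mem_bot, hP, h0, map_zero]
  refine ⟨hfin, ?_⟩
  have d1 : finrank ℂ (LinearMap.range P) = finrank ℂ (parabolicHoms ℂ Γ ℂ) :=
    LinearMap.finrank_range_of_inj hinj
  have d2 := Submodule.finrank_sup_add_finrank_inf_eq (LinearMap.range P)
    (LinearMap.range (cobL (X := SL(2, ℤ) ⧸ Γ)))
  rw [hdisj, finrank_bot, add_zero] at d2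
  have d3 : finrank ℂ ↥(LinearMap.range P ⊔ LinearMap.range (cobL (X := SL(2, ℤ) ⧸ Γ)))
      ≤ finrank ℂ (spaceK (X := SL(2, ℤ) ⧸ Γ)) :=
    Submodule.finrank_mono (sup_le hrange (range_cobL_le hX))
  have d4 := card_le_finrank_range_cobL (X := SL(2, ℤ) ⧸ Γ)
  have d5 := finrank_spaceA (X := SL(2, ℤ) ⧸ Γ) hX
  have d6 := finrank_spaceK_add_le (X := SL(2, ℤ) ⧸ Γ) hX
  change _ + Nat.card (MulAction.orbitRel.Quotient (Subgroup.zpowers T) (SL(2, ℤ) ⧸ Γ)) ≤ _
    at d6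
  rw [Nat.card_eq_fintype_card (α := SL(2, ℤ) ⧸ Γ)]
  omega

/-- **Package B'** for `Γ₀(N)`:
`6 dim Hom_par(Γ₀(N), ℂ) + 3 ν₂ + 4 ν₃ + 6 ν∞ ≤ 12 + μ`, with the orbit counts
on `SL(2,ℤ) ⧸ Γ₀(N)` (left cosets, left multiplication action). -/
theorem finrank_parabolicHoms_le (N : ℕ) [NeZero N] :
    Module.Finite ℂ (parabolicHoms ℂ (CongruenceSubgroup.Gamma0 N) ℂ) ∧
    6 * finrank ℂ (parabolicHoms ℂ (CongruenceSubgroup.Gamma0 N) ℂ)
      + 3 * Nat.card (MulAction.fixedBy (SL(2, ℤ) ⧸ CongruenceSubgroup.Gamma0 N) S)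
      + 4 * Nat.card (MulAction.fixedBy (SL(2, ℤ) ⧸ CongruenceSubgroup.Gamma0 N) (S * T))
      + 6 * Nat.card (MulAction.orbitRel.Quotient (Subgroup.zpowers T)
          (SL(2, ℤ) ⧸ CongruenceSubgroup.Gamma0 N))
      ≤ 12 + Nat.card (SL(2, ℤ) ⧸ CongruenceSubgroup.Gamma0 N) :=
  finrank_parabolicHoms_le_of (CongruenceSubgroup.Gamma0 N)
    (by rw [CongruenceSubgroup.Gamma0_mem]; simp)

end Quot

end Fermat.Agent.S21.H49
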